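import Mathlib

set_option autoImplicit false

/-!
# Slice A3 (partition-of-unity design): the tent function

`tent t = max 0 (1 - |t|)` is a `1`-Lipschitz function with values in `[0, 1]`, supported in
`[-1, 1]`, whose integer translates sum to `1`; hence `∏ i, tent (y i + k i)` summed over
`k : ι → ℤ` is `1`.
-/

namespace Fermat.Agent.S14.A3S

/-- The tent function. -/
noncomputable def tent (t : ℝ) : ℝ := max 0 (1 - |t|)

lemma tent_nonneg (t : ℝ) : 0 ≤ tent t := le_max_left _ _

lemma tent_le_one (t : ℝ) : tent t ≤ 1 := by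
  unfold tent
  exact max_le zero_le_one (by linarith [abs_nonneg t])

lemma tent_eq_zero {t : ℝ} (h : 1 ≤ |t|) : tent t = 0 := by
  unfold tent
  exact max_eq_left (by linarith)

lemma tent_of_abs_le {t : ℝ} (h : |t| ≤ 1) : tent t = 1 - |t| := by
  unfold tent
  exact max_eq_right (by linarith)

lemma abs_lt_one_of_tent_ne_zero {t : ℝ} (h : tent t ≠ 0) : |t| < 1 := by
  by_contra h'
  exact h (tent_eq_zero (not_lt.mp h'))

lemma tent_lipschitz (a b : ℝ) : |tent a - tent b| ≤ |a - b| := by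
  unfold tent
  have h1 : |max 0 (1 - |a|) - max 0 (1 - |b|)| ≤ |(1 - |a|) - (1 - |b|)| := by
    have := abs_max_sub_max_le_abs (1 - |a|) (1 - |b|) 0
    simpa [max_comm] using this
  have h2 : (1 - |a|) - (1 - |b|) = |b| - |a| := by ring
  rw [h2] at h1
  have h3 : |(|b| - |a|)| ≤ |b - a| := abs_abs_sub_abs_le b a
  rw [abs_sub_comm b a] at h3
  exact h1.trans h3

/-- The two integer translates of `t` at which the tent function does not vanish. -/
lemma tent_add_int_eq_zero {t : ℝ} {k : ℤ} (h1 : k ≠ -⌊t⌋) (h2 : k ≠ -⌊t⌋ - 1) :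
    tent (t + k) = 0 := by
  apply tent_eq_zero
  have hf := Int.floor_le t
  have hc := Int.lt_floor_add_one t
  rcases lt_or_gt_of_ne h1 with h | h
  · -- k ≤ -⌊t⌋ - 1, and k ≠ -⌊t⌋ - 1, so k ≤ -⌊t⌋ - 2
    have hk : k ≤ -⌊t⌋ - 2 := by omega
    have hk' : (k : ℝ) ≤ -(⌊t⌋ : ℝ) - 2 := by exact_mod_cast hk
    rw [le_abs]
    right
    linarith
  · have hk : -⌊t⌋ + 1 ≤ k := by omega
    have hk' : -(⌊t⌋ : ℝ) + 1 ≤ (k : ℝ) := by exact_mod_cast hk
    rw [le_abs]
    left
    linarith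

lemma tent_add_neg_floor (t : ℝ) : tent (t + ((-⌊t⌋ : ℤ) : ℝ)) = 1 - Int.fract t := by
  have h0 := Int.fract_nonneg t
  have h1 := (Int.fract_lt_one t).le
  have e : t + ((-⌊t⌋ : ℤ) : ℝ) = Int.fract t := by
    rw [Int.fract]; push_cast; ring
  rw [e, tent_of_abs_le (by rw [abs_of_nonneg h0]; exact h1), abs_of_nonneg h0]

lemma tent_add_neg_floor_sub_one (t : ℝ) :
    tent (t + ((-⌊t⌋ - 1 : ℤ) : ℝ)) = Int.fract t := by
  have h0 := Int.fract_nonneg t
  have h1 := (Int.fract_lt_one t).le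
  have e : t + ((-⌊t⌋ - 1 : ℤ) : ℝ) = Int.fract t - 1 := by
    rw [Int.fract]; push_cast; ring
  rw [e, tent_of_abs_le (by rw [abs_le]; constructor <;> linarith),
    abs_of_nonpos (by linarith)]
  ring

/-- One-dimensional partition of unity, as a finite sum. -/
lemma sum_tent_pair (t : ℝ) :
    ∑ k ∈ ({-⌊t⌋, -⌊t⌋ - 1} : Finset ℤ), tent (t + (k : ℝ)) = 1 := by
  rw [Finset.sum_pair (by omega), tent_add_neg_floor, tent_add_neg_floor_sub_one]
  ring

/-- Multi-dimensional partition of unity: the integer translates of the product of tents sum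
to `1`. -/
theorem hasSum_prod_tent {ι : Type*} [Fintype ι] [DecidableEq ι] (y : ι → ℝ) :
    HasSum (fun k : ι → ℤ => ∏ i, tent (y i + (k i : ℝ))) 1 := by
  classical
  set S : Finset (ι → ℤ) :=
    Fintype.piFinset (fun i => ({-⌊y i⌋, -⌊y i⌋ - 1} : Finset ℤ)) with hS
  have hsum : ∑ k ∈ S, ∏ i, tent (y i + (k i : ℝ)) = 1 := by
    rw [hS]
    have := (Finset.prod_univ_sum (fun i => ({-⌊y i⌋, -⌊y i⌋ - 1} : Finset ℤ))
      (fun i (k : ℤ) => tent (y i + (k : ℝ)))).symm
    rw [this]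
    simp [sum_tent_pair]
  rw [← hsum]
  apply hasSum_sum_of_ne_finset_zero
  intro k hk
  rw [hS, Fintype.mem_piFinset] at hk
  obtain ⟨i, hi⟩ := not_forall.mp hk
  apply Finset.prod_eq_zero (Finset.mem_univ i)
  apply tent_add_int_eq_zero
  · intro h; exact hi (by simp [h])
  · intro h; exact hi (by simp [h])

lemma prod_tent_nonneg {ι : Type*} [Fintype ι] (y : ι → ℝ) : 0 ≤ ∏ i, tent (y i) :=
  Finset.prod_nonneg fun _ _ => tent_nonneg _

lemma prod_tent_le_one {ι : Type*} [Fintype ι] (y : ι → ℝ) : ∏ i, tent (y i) ≤ 1 :=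
  Finset.prod_le_one (fun _ _ => tent_nonneg _) (fun _ _ => tent_le_one _)

/-- The product of tents is Lipschitz for the sum of the coordinate differences. -/
lemma abs_prod_tent_sub_le {ι : Type*} [Fintype ι] (y z : ι → ℝ) :
    |∏ i, tent (y i) - ∏ i, tent (z i)| ≤ ∑ i, |y i - z i| := by
  classical
  have key : ∀ s : Finset ι,
      |∏ i ∈ s, tent (y i) - ∏ i ∈ s, tent (z i)| ≤ ∑ i ∈ s, |y i - z i| := by
    intro s
    induction s using Finset.induction_on with
    | empty => simp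
    | insert a s ha ih =>
      rw [Finset.prod_insert ha, Finset.prod_insert ha, Finset.sum_insert ha]
      have hP : |∏ i ∈ s, tent (y i)| ≤ 1 := by
        rw [abs_of_nonneg (Finset.prod_nonneg fun _ _ => tent_nonneg _)]
        exact Finset.prod_le_one (fun _ _ => tent_nonneg _) (fun _ _ => tent_le_one _)
      have hz : |tent (z a)| ≤ 1 := by
        rw [abs_of_nonneg (tent_nonneg _)]; exact tent_le_one _
      have e : tent (y a) * ∏ i ∈ s, tent (y i) - tent (z a) * ∏ i ∈ s, tent (z i) =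
          (tent (y a) - tent (z a)) * ∏ i ∈ s, tent (y i) +
            tent (z a) * (∏ i ∈ s, tent (y i) - ∏ i ∈ s, tent (z i)) := by ring
      rw [e]
      calc |(tent (y a) - tent (z a)) * ∏ i ∈ s, tent (y i) +
            tent (z a) * (∏ i ∈ s, tent (y i) - ∏ i ∈ s, tent (z i))|
          ≤ |(tent (y a) - tent (z a)) * ∏ i ∈ s, tent (y i)| +
            |tent (z a) * (∏ i ∈ s, tent (y i) - ∏ i ∈ s, tent (z i))| := abs_add_le _ _
        _ = |tent (y a) - tent (z a)| * |∏ i ∈ s, tent (y i)| +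
            |tent (z a)| * |∏ i ∈ s, tent (y i) - ∏ i ∈ s, tent (z i)| := by
            rw [abs_mul, abs_mul]
        _ ≤ |y a - z a| * 1 + 1 * ∑ i ∈ s, |y i - z i| :=
            add_le_add
              (mul_le_mul (tent_lipschitz _ _) hP (abs_nonneg _) (abs_nonneg _))
              (mul_le_mul hz ih (abs_nonneg _) zero_le_one)
        _ = |y a - z a| + ∑ i ∈ s, |y i - z i| := by ring
  exact key Finset.univ

end Fermat.Agent.S14.A3S
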