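import Mathlib
import Fermat.Agent.S14.A3S.Tent

set_option autoImplicit false

/-!
# Slice A3 (partition-of-unity design): the cutoff `Phi` on the mixed space

`Phi x = ∏ i, tent (y_i (logMap x))`, where `y_i` are the coordinates in the basis of the unit
lattice.  Its sum over a unit orbit equals the number of roots of unity.
-/

open NumberField NumberField.mixedEmbedding NumberField.InfinitePlace NumberField.Units
  NumberField.Units.dirichletUnitTheorem Module

open scoped NumberField

namespace Fermat.Agent.S14.A3S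

variable (K : Type*) [Field K] [NumberField K]

open scoped Classical in
/-- The real basis of the log space given by a basis of the unit lattice. -/
noncomputable def logBasis : Basis (Fin (rank K)) ℝ (logSpace K) :=
  (basisUnitLattice K).ofZLatticeBasis ℝ (unitLattice K)

/-- The coordinates of `logMap x` in the unit-lattice basis. -/
noncomputable def ycoord (x : mixedSpace K) (i : Fin (rank K)) : ℝ :=
  (logBasis K).repr (logMap x) i

/-- The Lipschitz cutoff on the mixed space. -/
noncomputable def Phi (x : mixedSpace K) : ℝ := ∏ i, tent (ycoord K x i)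

lemma Phi_nonneg (x : mixedSpace K) : 0 ≤ Phi K x := prod_tent_nonneg _

lemma Phi_le_one (x : mixedSpace K) : Phi K x ≤ 1 := prod_tent_le_one _

lemma abs_ycoord_lt_one_of_Phi_ne_zero {x : mixedSpace K} (h : Phi K x ≠ 0)
    (i : Fin (rank K)) : |ycoord K x i| < 1 := by
  apply abs_lt_one_of_tent_ne_zero
  intro h0
  exact h (Finset.prod_eq_zero (Finset.mem_univ i) h0)

/-- The bijection of Dirichlet's unit theorem. -/
noncomputable def unitEquiv : torsion K × (Fin (rank K) → ℤ) ≃ (𝓞 K)ˣ :=
  Equiv.ofBijective (fun ζe => (ζe.1 : (𝓞 K)ˣ) * ∏ i, (fundSystem K i) ^ (ζe.2 i)) (by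
    rw [Function.bijective_iff_existsUnique]
    intro x
    obtain ⟨ζe, h1, h2⟩ := exist_unique_eq_mul_prod K x
    exact ⟨ζe, h1.symm, fun y hy => h2 y hy.symm⟩)

lemma unitEquiv_apply (ζe : torsion K × (Fin (rank K) → ℤ)) :
    unitEquiv K ζe = (ζe.1 : (𝓞 K)ˣ) * ∏ i, (fundSystem K i) ^ (ζe.2 i) := rfl

lemma logEmbedding_unitEquiv (ζe : torsion K × (Fin (rank K) → ℤ)) :
    logEmbedding K (Additive.ofMul (unitEquiv K ζe)) =
      ∑ i, ((ζe.2 i : ℤ) : ℝ) • logBasis K i := by
  rw [unitEquiv_apply, ofMul_mul, map_add, ofMul_prod, map_sum]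
  have h0 : logEmbedding K (Additive.ofMul (ζe.1 : (𝓞 K)ˣ)) = 0 :=
    logEmbedding_eq_zero_iff.mpr ζe.1.2
  rw [h0, zero_add]
  refine Finset.sum_congr rfl fun i _ => ?_
  rw [ofMul_zpow, map_zsmul, logEmbedding_fundSystem, logBasis, Basis.ofZLatticeBasis_apply,
    Int.cast_smul_eq_zsmul]

lemma ycoord_unitEquiv_smul {x : mixedSpace K} (hx : mixedEmbedding.norm x ≠ 0)
    (ζe : torsion K × (Fin (rank K) → ℤ)) (i : Fin (rank K)) :
    ycoord K (unitEquiv K ζe • x) i = ycoord K x i + (ζe.2 i : ℝ) := by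
  unfold ycoord
  rw [logMap_unit_smul _ hx, logEmbedding_unitEquiv, map_add]
  have := (logBasis K).repr_sum_self (fun i => ((ζe.2 i : ℤ) : ℝ))
  rw [Finsupp.add_apply, this, add_comm]

/-- The orbit sum of `Phi` over the units is the number of roots of unity. -/
theorem tsum_Phi_unit_smul {x : mixedSpace K} (hx : mixedEmbedding.norm x ≠ 0) :
    ∑' u : (𝓞 K)ˣ, ENNReal.ofReal (Phi K (u • x)) = torsionOrder K := by
  classical
  rw [← (unitEquiv K).tsum_eq, ENNReal.tsum_prod']
  have hk : ∀ ζ : torsion K,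
      ∑' k : Fin (rank K) → ℤ, ENNReal.ofReal (Phi K (unitEquiv K (ζ, k) • x)) = 1 := by
    intro ζ
    have hs := hasSum_prod_tent (fun i => ycoord K x i)
    have e : ∀ k : Fin (rank K) → ℤ, Phi K (unitEquiv K (ζ, k) • x) =
        ∏ i, tent (ycoord K x i + (k i : ℝ)) := by
      intro k
      unfold Phi
      refine Finset.prod_congr rfl fun i _ => ?_
      rw [ycoord_unitEquiv_smul K hx]
    simp_rw [e]
    rw [← ENNReal.ofReal_tsum_of_nonneg (fun k => Finset.prod_nonneg fun i _ => tent_nonneg _)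
      hs.summable, hs.tsum_eq, ENNReal.ofReal_one]
  simp_rw [hk]
  have : Fintype (torsion K) := Fintype.ofFinite _
  rw [tsum_fintype, Finset.sum_const, Finset.card_univ, nsmul_eq_mul, mul_one, torsionOrder,
    Nat.card_eq_fintype_card]

end Fermat.Agent.S14.A3S
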