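import Mathlib
import Fermat.Agent.S14.A3S.Phi

set_option autoImplicit false

/-!
# Slice A3 (partition-of-unity design): the oscillation bound

`Fs s x = Phi x * (norm x) ^ (-s)`.  On the support of `Phi` all the `normAtPlace w x` are
comparable to `(norm x)^(1/d)`; this gives the decay `Fs s x ≤ C ‖x‖^(-d s)` and the shift bound
`|Fs s x - Fs s y| ≤ C / (1 + ‖y‖)^(d+1)` for `‖x - y‖ ≤ D`, uniformly for `s ∈ [1, 2]`, at points
of norm `≥ 1` (or zero).
-/

open NumberField NumberField.mixedEmbedding NumberField.InfinitePlace NumberField.Units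
  NumberField.Units.dirichletUnitTheorem Module Finset

open scoped NumberField Classical

namespace Fermat.Agent.S14.A3S

variable (K : Type*) [Field K] [NumberField K]

/-- The weight `Phi x * N(x)^(-s)`. -/
noncomputable def Fs (s : ℝ) (x : mixedSpace K) : ℝ := Phi K x * (mixedEmbedding.norm x) ^ (-s)

lemma Fs_nonneg (s : ℝ) (x : mixedSpace K) : 0 ≤ Fs K s x :=
  mul_nonneg (Phi_nonneg K x) (Real.rpow_nonneg (mixedEmbedding.norm_nonneg x) _)

lemma Fs_zero {s : ℝ} (hs : s ≠ 0) : Fs K s 0 = 0 := by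
  unfold Fs
  rw [map_zero, Real.zero_rpow (neg_ne_zero.mpr hs), mul_zero]

lemma Fs_le_one {s : ℝ} (hs : 0 ≤ s) {x : mixedSpace K} (hx : 1 ≤ mixedEmbedding.norm x) :
    Fs K s x ≤ 1 := by
  unfold Fs
  have h1 : (mixedEmbedding.norm x) ^ (-s) ≤ 1 :=
    Real.rpow_le_one_of_one_le_of_nonpos hx (by linarith)
  calc Phi K x * (mixedEmbedding.norm x) ^ (-s) ≤ 1 * 1 :=
        mul_le_mul (Phi_le_one K x) h1 (Real.rpow_nonneg (mixedEmbedding.norm_nonneg x) _)
          zero_le_one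
    _ = 1 := one_mul 1

variable {K}

lemma normAtPlace_le_norm (w : InfinitePlace K) (x : mixedSpace K) :
    normAtPlace w x ≤ ‖x‖ := by
  classical
  rw [norm_eq_sup'_normAtPlace]
  exact Finset.le_sup' (fun w => normAtPlace w x) (Finset.mem_univ w)

lemma norm_le_of_normAtPlace_le {x : mixedSpace K} {B : ℝ}
    (h : ∀ w, normAtPlace w x ≤ B) : ‖x‖ ≤ B := by
  classical
  rw [norm_eq_sup'_normAtPlace]
  exact Finset.sup'_le _ _ fun w _ => h w

lemma exists_normAtPlace_eq_norm (x : mixedSpace K) : ∃ w, normAtPlace w x = ‖x‖ := by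
  classical
  rw [norm_eq_sup'_normAtPlace]
  obtain ⟨w, -, hw⟩ := Finset.exists_mem_eq_sup' Finset.univ_nonempty (fun w => normAtPlace w x)
  exact ⟨w, hw.symm⟩

lemma abs_normAtPlace_sub_le (w : InfinitePlace K) (x y : mixedSpace K) :
    |normAtPlace w x - normAtPlace w y| ≤ ‖x - y‖ := by
  rw [abs_le]
  constructor
  · have h1 := normAtPlace_add_le w (y - x) x
    rw [sub_add_cancel] at h1
    have h2 := normAtPlace_le_norm w (y - x)
    rw [norm_sub_rev] at h2
    linarith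
  · have h1 := normAtPlace_add_le w (x - y) y
    rw [sub_add_cancel] at h1
    have h2 := normAtPlace_le_norm w (x - y)
    linarith

/-- `log N(x) = ∑ w, mult w * log (normAtPlace w x)`. -/
lemma log_norm_eq_sum {x : mixedSpace K} (hx : mixedEmbedding.norm x ≠ 0) :
    Real.log (mixedEmbedding.norm x) = ∑ w, (mult w : ℝ) * Real.log (normAtPlace w x) := by
  rw [mixedEmbedding.norm_apply, Real.log_prod]
  · simp_rw [Real.log_pow]
  · intro w _
    exact pow_ne_zero _ (mixedEmbedding.norm_ne_zero_iff.mp hx w)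

/-- The deviation of `log (normAtPlace w x)` from the mean `log N(x) / d`. -/
noncomputable def dev (x : mixedSpace K) (w : InfinitePlace K) : ℝ :=
  Real.log (normAtPlace w x) - Real.log (mixedEmbedding.norm x) * (finrank ℚ K : ℝ)⁻¹

lemma sum_mult_mul_dev {x : mixedSpace K} (hx : mixedEmbedding.norm x ≠ 0) :
    ∑ w, (mult w : ℝ) * dev x w = 0 := by
  unfold dev
  simp_rw [mul_sub]
  rw [Finset.sum_sub_distrib, ← log_norm_eq_sum hx]
  simp_rw [← mul_assoc, mul_comm (mult _ : ℝ) (Real.log _), mul_assoc]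
  rw [← Finset.mul_sum, ← Finset.sum_mul, ← Nat.cast_sum, sum_mult_eq,
    mul_inv_cancel₀ (Nat.cast_ne_zero.mpr finrank_pos.ne'), mul_one, sub_self]

lemma logMap_eq_mult_mul_dev (x : mixedSpace K) (w : {w : InfinitePlace K // w ≠ w₀}) :
    logMap x w = (mult w.1 : ℝ) * dev x w.1 := rfl

omit [NumberField K] in
lemma one_le_mult (w : InfinitePlace K) : (1 : ℝ) ≤ (mult w : ℝ) := by
  have : 1 ≤ mult w := by
    unfold mult
    split_ifs <;> norm_num
  exact_mod_cast this

omit [NumberField K] in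
lemma mult_le_two (w : InfinitePlace K) : (mult w : ℝ) ≤ 2 := by
  have : mult w ≤ 2 := by
    unfold mult
    split_ifs <;> norm_num
  exact_mod_cast this

variable (K) in
/-- A bound for `logMap` on the support of `Phi`. -/
noncomputable def R1 : ℝ := ∑ i, ‖logBasis K i‖

variable (K) in
lemma R1_nonneg : 0 ≤ R1 K := Finset.sum_nonneg fun _ _ => norm_nonneg _

lemma abs_logMap_le_of_Phi_ne_zero {x : mixedSpace K} (h : Phi K x ≠ 0)
    (w : {w : InfinitePlace K // w ≠ w₀}) : |logMap x w| ≤ R1 K := by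
  classical
  have e : logMap x = ∑ i, ycoord K x i • logBasis K i := by
    unfold ycoord
    exact ((logBasis K).sum_repr (logMap x)).symm
  rw [e, Finset.sum_apply]
  calc |∑ i, (ycoord K x i • logBasis K i) w|
      ≤ ∑ i, |(ycoord K x i • logBasis K i) w| := Finset.abs_sum_le_sum_abs _ _
    _ ≤ ∑ i, ‖logBasis K i‖ := by
        refine Finset.sum_le_sum fun i _ => ?_
        rw [Pi.smul_apply, smul_eq_mul, abs_mul]
        have h1 : |ycoord K x i| ≤ 1 := (abs_ycoord_lt_one_of_Phi_ne_zero K h i).le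
        have h2 : |logBasis K i w| ≤ ‖logBasis K i‖ := by
          have := norm_le_pi_norm (logBasis K i) w
          rwa [Real.norm_eq_abs] at this
        calc |ycoord K x i| * |logBasis K i w| ≤ 1 * ‖logBasis K i‖ :=
              mul_le_mul h1 h2 (abs_nonneg _) zero_le_one
          _ = ‖logBasis K i‖ := one_mul _

variable (K) in
/-- A bound for the deviations `dev x w` on the support of `Phi`. -/
noncomputable def R2 : ℝ := (Fintype.card (InfinitePlace K) : ℝ) * R1 K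

variable (K) in
lemma R2_nonneg : 0 ≤ R2 K := mul_nonneg (Nat.cast_nonneg _) (R1_nonneg K)

lemma abs_dev_le_of_Phi_ne_zero {x : mixedSpace K} (h : Phi K x ≠ 0)
    (hx : mixedEmbedding.norm x ≠ 0) (w : InfinitePlace K) : |dev x w| ≤ R2 K := by
  classical
  have hcard : (1 : ℝ) ≤ (Fintype.card (InfinitePlace K) : ℝ) := by
    exact_mod_cast Fintype.card_pos
  have hR1 := R1_nonneg K
  by_cases hw : w = w₀
  · subst hw
    have hsum := sum_mult_mul_dev hx
    rw [Fintype.sum_eq_add_sum_subtype_ne _ (w₀ : InfinitePlace K)] at hsum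
    have h1 : (mult (w₀ : InfinitePlace K) : ℝ) * dev x w₀ =
        -∑ w : {w : InfinitePlace K // w ≠ w₀}, logMap x w := by
      simp_rw [logMap_eq_mult_mul_dev]
      linarith
    have h2 : |∑ w : {w : InfinitePlace K // w ≠ w₀}, logMap x w| ≤
        (Fintype.card {w : InfinitePlace K // w ≠ w₀} : ℝ) * R1 K := by
      calc |∑ w : {w : InfinitePlace K // w ≠ w₀}, logMap x w|
          ≤ ∑ w : {w : InfinitePlace K // w ≠ w₀}, |logMap x w| := Finset.abs_sum_le_sum_abs _ _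
        _ ≤ ∑ _w : {w : InfinitePlace K // w ≠ w₀}, R1 K :=
            Finset.sum_le_sum fun w _ => abs_logMap_le_of_Phi_ne_zero h w
        _ = (Fintype.card {w : InfinitePlace K // w ≠ w₀} : ℝ) * R1 K := by
            rw [Finset.sum_const, Finset.card_univ, nsmul_eq_mul]
    have h3 : (Fintype.card {w : InfinitePlace K // w ≠ w₀} : ℝ) ≤
        (Fintype.card (InfinitePlace K) : ℝ) := by
      exact_mod_cast Fintype.card_subtype_le _
    have h4 : |(mult (w₀ : InfinitePlace K) : ℝ) * dev x w₀| ≤ R2 K := by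
      rw [h1, abs_neg]
      exact h2.trans (mul_le_mul_of_nonneg_right h3 hR1)
    rw [abs_mul, abs_of_nonneg (by linarith [one_le_mult (w₀ : InfinitePlace K)])] at h4
    calc |dev x w₀| = 1 * |dev x w₀| := (one_mul _).symm
      _ ≤ (mult (w₀ : InfinitePlace K) : ℝ) * |dev x w₀| :=
          mul_le_mul_of_nonneg_right (one_le_mult _) (abs_nonneg _)
      _ ≤ R2 K := h4
  · have h1 := abs_logMap_le_of_Phi_ne_zero h ⟨w, hw⟩
    rw [logMap_eq_mult_mul_dev, abs_mul, abs_of_nonneg (by linarith [one_le_mult w])] at h1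
    have h2 : |dev x w| ≤ R1 K :=
      calc |dev x w| = 1 * |dev x w| := (one_mul _).symm
        _ ≤ (mult w : ℝ) * |dev x w| :=
            mul_le_mul_of_nonneg_right (one_le_mult _) (abs_nonneg _)
        _ ≤ R1 K := h1
    calc |dev x w| ≤ R1 K := h2
      _ = 1 * R1 K := (one_mul _).symm
      _ ≤ R2 K := mul_le_mul_of_nonneg_right hcard hR1

/-! ### Comparability on the support of `Phi` -/

lemma normAtPlace_pos_of_norm_ne_zero {x : mixedSpace K} (hx : mixedEmbedding.norm x ≠ 0)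
    (w : InfinitePlace K) : 0 < normAtPlace w x :=
  lt_of_le_of_ne (normAtPlace_nonneg w x) (mixedEmbedding.norm_ne_zero_iff.mp hx w).symm

lemma finrank_pos_real : (0 : ℝ) < (finrank ℚ K : ℝ) := Nat.cast_pos.mpr finrank_pos

/-- On the support of `Phi`, at points of norm `≥ 1`, every `normAtPlace` is bounded below. -/
lemma exp_neg_R2_le_normAtPlace {x : mixedSpace K} (h : Phi K x ≠ 0)
    (hx : 1 ≤ mixedEmbedding.norm x) (w : InfinitePlace K) :
    Real.exp (-R2 K) ≤ normAtPlace w x := by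
  have hx0 : mixedEmbedding.norm x ≠ 0 := by linarith
  have hpos := normAtPlace_pos_of_norm_ne_zero hx0 w
  have hdev := (abs_le.mp (abs_dev_le_of_Phi_ne_zero h hx0 w)).1
  unfold dev at hdev
  have hlog : 0 ≤ Real.log (mixedEmbedding.norm x) * (finrank ℚ K : ℝ)⁻¹ :=
    mul_nonneg (Real.log_nonneg hx) (inv_nonneg.mpr finrank_pos_real.le)
  have h1 : -R2 K ≤ Real.log (normAtPlace w x) := by linarith
  calc Real.exp (-R2 K) ≤ Real.exp (Real.log (normAtPlace w x)) := Real.exp_le_exp.mpr h1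
    _ = normAtPlace w x := Real.exp_log hpos

/-- On the support of `Phi`, all the `normAtPlace` are comparable. -/
lemma normAtPlace_le_exp_mul_normAtPlace {x : mixedSpace K} (h : Phi K x ≠ 0)
    (hx0 : mixedEmbedding.norm x ≠ 0) (w w' : InfinitePlace K) :
    normAtPlace w' x ≤ Real.exp (2 * R2 K) * normAtPlace w x := by
  have hpos := normAtPlace_pos_of_norm_ne_zero hx0 w
  have hpos' := normAtPlace_pos_of_norm_ne_zero hx0 w'
  have hdev := (abs_le.mp (abs_dev_le_of_Phi_ne_zero h hx0 w)).1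
  have hdev' := (abs_le.mp (abs_dev_le_of_Phi_ne_zero h hx0 w')).2
  unfold dev at hdev hdev'
  have h1 : Real.log (normAtPlace w' x) ≤ 2 * R2 K + Real.log (normAtPlace w x) := by linarith
  calc normAtPlace w' x = Real.exp (Real.log (normAtPlace w' x)) := (Real.exp_log hpos').symm
    _ ≤ Real.exp (2 * R2 K + Real.log (normAtPlace w x)) := Real.exp_le_exp.mpr h1
    _ = Real.exp (2 * R2 K) * normAtPlace w x := by rw [Real.exp_add, Real.exp_log hpos]

lemma norm_le_exp_mul_normAtPlace {x : mixedSpace K} (h : Phi K x ≠ 0)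
    (hx0 : mixedEmbedding.norm x ≠ 0) (w : InfinitePlace K) :
    ‖x‖ ≤ Real.exp (2 * R2 K) * normAtPlace w x :=
  norm_le_of_normAtPlace_le fun w' => normAtPlace_le_exp_mul_normAtPlace h hx0 w w'

/-- On the support of `Phi`, `‖x‖^d ≤ exp (d R2) N(x)`. -/
lemma norm_pow_le_exp_mul_norm {x : mixedSpace K} (h : Phi K x ≠ 0)
    (hx0 : mixedEmbedding.norm x ≠ 0) :
    ‖x‖ ^ (finrank ℚ K) ≤ Real.exp ((finrank ℚ K : ℝ) * R2 K) * mixedEmbedding.norm x := by
  obtain ⟨w, hw⟩ := exists_normAtPlace_eq_norm x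
  have hpos := normAtPlace_pos_of_norm_ne_zero hx0 w
  have hNpos : 0 < mixedEmbedding.norm x :=
    lt_of_le_of_ne (mixedEmbedding.norm_nonneg x) (Ne.symm hx0)
  have hdev := (abs_le.mp (abs_dev_le_of_Phi_ne_zero h hx0 w)).2
  unfold dev at hdev
  have hd := finrank_pos_real (K := K)
  have h1 : (finrank ℚ K : ℝ) * Real.log (normAtPlace w x) ≤
      (finrank ℚ K : ℝ) * R2 K + Real.log (mixedEmbedding.norm x) := by
    have h2 : Real.log (normAtPlace w x) ≤
        R2 K + Real.log (mixedEmbedding.norm x) * (finrank ℚ K : ℝ)⁻¹ := by linarith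
    calc (finrank ℚ K : ℝ) * Real.log (normAtPlace w x)
        ≤ (finrank ℚ K : ℝ) * (R2 K + Real.log (mixedEmbedding.norm x) * (finrank ℚ K : ℝ)⁻¹) :=
          mul_le_mul_of_nonneg_left h2 hd.le
      _ = (finrank ℚ K : ℝ) * R2 K + Real.log (mixedEmbedding.norm x) := by
          field_simp
  rw [← hw]
  calc normAtPlace w x ^ (finrank ℚ K)
      = Real.exp (Real.log (normAtPlace w x ^ (finrank ℚ K))) :=
        (Real.exp_log (pow_pos hpos _)).symm
    _ = Real.exp ((finrank ℚ K : ℝ) * Real.log (normAtPlace w x)) := by rw [Real.log_pow]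
    _ ≤ Real.exp ((finrank ℚ K : ℝ) * R2 K + Real.log (mixedEmbedding.norm x)) :=
        Real.exp_le_exp.mpr h1
    _ = Real.exp ((finrank ℚ K : ℝ) * R2 K) * mixedEmbedding.norm x := by
        rw [Real.exp_add, Real.exp_log hNpos]

/-- **Decay** of `Fs`: `Fs s x ≤ exp (d R2 s) ‖x‖^(-(d s))` at points of norm `≥ 1`. -/
theorem Fs_le_rpow {s : ℝ} (hs : 0 ≤ s) {x : mixedSpace K} (hx : 1 ≤ mixedEmbedding.norm x) :
    Fs K s x ≤ Real.exp ((finrank ℚ K : ℝ) * R2 K * s) * ‖x‖ ^ (-((finrank ℚ K : ℝ) * s)) := by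
  have hx0 : mixedEmbedding.norm x ≠ 0 := by linarith
  have hxne : x ≠ 0 := by
    rintro rfl
    simp at hx0
  have hnpos : 0 < ‖x‖ := norm_pos_iff.mpr hxne
  have hRHS : 0 ≤ Real.exp ((finrank ℚ K : ℝ) * R2 K * s) * ‖x‖ ^ (-((finrank ℚ K : ℝ) * s)) :=
    mul_nonneg (Real.exp_pos _).le (Real.rpow_nonneg hnpos.le _)
  by_cases h : Phi K x = 0
  · unfold Fs
    rw [h, zero_mul]
    exact hRHS
  · have h1 := norm_pow_le_exp_mul_norm h hx0
    set E := Real.exp ((finrank ℚ K : ℝ) * R2 K) with hE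
    have hEpos : 0 < E := Real.exp_pos _
    have h2 : ‖x‖ ^ (finrank ℚ K) / E ≤ mixedEmbedding.norm x := by
      rw [div_le_iff₀ hEpos, mul_comm]
      exact h1
    have h3 : 0 < ‖x‖ ^ (finrank ℚ K) / E := div_pos (pow_pos hnpos _) hEpos
    have h4 : (mixedEmbedding.norm x) ^ (-s) ≤ (‖x‖ ^ (finrank ℚ K) / E) ^ (-s) :=
      Real.rpow_le_rpow_of_nonpos h3 h2 (by linarith)
    have h5 : (‖x‖ ^ (finrank ℚ K) / E) ^ (-s) =
        Real.exp ((finrank ℚ K : ℝ) * R2 K * s) * ‖x‖ ^ (-((finrank ℚ K : ℝ) * s)) := by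
      rw [Real.div_rpow (pow_nonneg hnpos.le _) hEpos.le, ← Real.rpow_natCast,
        ← Real.rpow_mul hnpos.le, Real.rpow_neg hEpos.le, hE, ← Real.exp_mul, div_eq_mul_inv,
        inv_inv, mul_comm]
      congr 2
      ring
    unfold Fs
    calc Phi K x * (mixedEmbedding.norm x) ^ (-s)
        ≤ 1 * (‖x‖ ^ (finrank ℚ K) / E) ^ (-s) :=
          mul_le_mul (Phi_le_one K x) h4 (Real.rpow_nonneg (mixedEmbedding.norm_nonneg x) _)
            zero_le_one
      _ = _ := by rw [one_mul, h5]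

/-! ### Estimates in a box `μ ≤ normAtPlace w u` -/

lemma abs_log_sub_log_le {a b μ : ℝ} (hμ : 0 < μ) (ha : μ ≤ a) (hb : μ ≤ b) :
    |Real.log a - Real.log b| ≤ |a - b| / μ := by
  have key : ∀ {a b : ℝ}, μ ≤ a → μ ≤ b → b ≤ a → |Real.log a - Real.log b| ≤ |a - b| / μ := by
    intro a b ha hb hab
    have ha0 : 0 < a := lt_of_lt_of_le hμ ha
    have hb0 : 0 < b := lt_of_lt_of_le hμ hb
    have h1 : 0 ≤ Real.log a - Real.log b := sub_nonneg.mpr (Real.log_le_log hb0 hab)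
    rw [abs_of_nonneg h1, abs_of_nonneg (sub_nonneg.mpr hab)]
    have h2 : Real.log a - Real.log b = Real.log (a / b) := (Real.log_div ha0.ne' hb0.ne').symm
    have h3 : Real.log (a / b) ≤ a / b - 1 := Real.log_le_sub_one_of_pos (div_pos ha0 hb0)
    have h4 : a / b - 1 = (a - b) / b := by field_simp
    rw [h2]
    calc Real.log (a / b) ≤ (a - b) / b := by rw [← h4]; exact h3
      _ ≤ (a - b) / μ := div_le_div_of_nonneg_left (sub_nonneg.mpr hab) hμ hb
  rcases le_total b a with hab | hab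
  · exact key ha hb hab
  · rw [abs_sub_comm (Real.log a), abs_sub_comm a]
    exact key hb ha hab

section Box

variable {μ : ℝ} {u u' : mixedSpace K}

lemma abs_log_normAtPlace_sub_le (hμ : 0 < μ) (hu : ∀ w, μ ≤ normAtPlace w u)
    (hu' : ∀ w, μ ≤ normAtPlace w u') (w : InfinitePlace K) :
    |Real.log (normAtPlace w u) - Real.log (normAtPlace w u')| ≤ ‖u - u'‖ / μ :=
  (abs_log_sub_log_le hμ (hu w) (hu' w)).trans
    (div_le_div_of_nonneg_right (abs_normAtPlace_sub_le w u u') hμ.le)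

lemma norm_ne_zero_of_box (hμ : 0 < μ) (hu : ∀ w, μ ≤ normAtPlace w u) :
    mixedEmbedding.norm u ≠ 0 :=
  mixedEmbedding.norm_ne_zero_iff.mpr fun w => (lt_of_lt_of_le hμ (hu w)).ne'

lemma abs_log_norm_sub_le (hμ : 0 < μ) (hu : ∀ w, μ ≤ normAtPlace w u)
    (hu' : ∀ w, μ ≤ normAtPlace w u') :
    |Real.log (mixedEmbedding.norm u) - Real.log (mixedEmbedding.norm u')| ≤
      (finrank ℚ K : ℝ) * (‖u - u'‖ / μ) := by
  rw [log_norm_eq_sum (norm_ne_zero_of_box hμ hu), log_norm_eq_sum (norm_ne_zero_of_box hμ hu'),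
    ← Finset.sum_sub_distrib]
  calc |∑ w, ((mult w : ℝ) * Real.log (normAtPlace w u) -
          (mult w : ℝ) * Real.log (normAtPlace w u'))|
      ≤ ∑ w, |(mult w : ℝ) * Real.log (normAtPlace w u) -
          (mult w : ℝ) * Real.log (normAtPlace w u')| := Finset.abs_sum_le_sum_abs _ _
    _ ≤ ∑ w, (mult w : ℝ) * (‖u - u'‖ / μ) := by
        refine Finset.sum_le_sum fun w _ => ?_
        rw [← mul_sub, abs_mul, abs_of_nonneg (by linarith [one_le_mult w])]
        exact mul_le_mul_of_nonneg_left (abs_log_normAtPlace_sub_le hμ hu hu' w)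
          (by linarith [one_le_mult w])
    _ = (finrank ℚ K : ℝ) * (‖u - u'‖ / μ) := by
        rw [← Finset.sum_mul, ← Nat.cast_sum, sum_mult_eq]

lemma abs_dev_sub_le (hμ : 0 < μ) (hu : ∀ w, μ ≤ normAtPlace w u)
    (hu' : ∀ w, μ ≤ normAtPlace w u') (w : InfinitePlace K) :
    |dev u w - dev u' w| ≤ 2 * (‖u - u'‖ / μ) := by
  unfold dev
  have h1 := abs_log_normAtPlace_sub_le hμ hu hu' w
  have h2 := abs_log_norm_sub_le hμ hu hu'
  have hd := finrank_pos_real (K := K)
  have e : Real.log (normAtPlace w u) - Real.log (mixedEmbedding.norm u) * (finrank ℚ K : ℝ)⁻¹ -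
      (Real.log (normAtPlace w u') - Real.log (mixedEmbedding.norm u') * (finrank ℚ K : ℝ)⁻¹) =
      (Real.log (normAtPlace w u) - Real.log (normAtPlace w u')) -
      (Real.log (mixedEmbedding.norm u) - Real.log (mixedEmbedding.norm u')) *
        (finrank ℚ K : ℝ)⁻¹ := by ring
  rw [e]
  have h3 : |(Real.log (mixedEmbedding.norm u) - Real.log (mixedEmbedding.norm u')) *
      (finrank ℚ K : ℝ)⁻¹| ≤ ‖u - u'‖ / μ := by
    rw [abs_mul, abs_of_nonneg (inv_nonneg.mpr hd.le), ← div_eq_mul_inv, div_le_iff₀ hd]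
    linarith
  calc |(Real.log (normAtPlace w u) - Real.log (normAtPlace w u')) -
        (Real.log (mixedEmbedding.norm u) - Real.log (mixedEmbedding.norm u')) *
          (finrank ℚ K : ℝ)⁻¹|
      ≤ |Real.log (normAtPlace w u) - Real.log (normAtPlace w u')| +
        |(Real.log (mixedEmbedding.norm u) - Real.log (mixedEmbedding.norm u')) *
          (finrank ℚ K : ℝ)⁻¹| := abs_sub _ _
    _ ≤ ‖u - u'‖ / μ + ‖u - u'‖ / μ := add_le_add h1 h3
    _ = 2 * (‖u - u'‖ / μ) := by ring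

lemma norm_logMap_sub_le (hμ : 0 < μ) (hu : ∀ w, μ ≤ normAtPlace w u)
    (hu' : ∀ w, μ ≤ normAtPlace w u') :
    ‖logMap u - logMap u'‖ ≤ 4 * (‖u - u'‖ / μ) := by
  have h0 : 0 ≤ 4 * (‖u - u'‖ / μ) :=
    mul_nonneg (by norm_num) (div_nonneg (norm_nonneg _) hμ.le)
  rw [pi_norm_le_iff_of_nonneg h0]
  intro w
  rw [Pi.sub_apply, logMap_eq_mult_mul_dev, logMap_eq_mult_mul_dev, ← mul_sub, Real.norm_eq_abs,
    abs_mul, abs_of_nonneg (by linarith [one_le_mult w.1])]
  have h1 := abs_dev_sub_le hμ hu hu' w.1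
  have h2 := mult_le_two w.1
  calc (mult w.1 : ℝ) * |dev u w.1 - dev u' w.1| ≤ 2 * (2 * (‖u - u'‖ / μ)) :=
        mul_le_mul h2 h1 (abs_nonneg _) (by norm_num)
    _ = 4 * (‖u - u'‖ / μ) := by ring

variable (K) in
/-- The operator norm of the coordinate map of `logBasis`. -/
noncomputable def cB : ℝ := ‖((logBasis K).equivFunL : logSpace K →L[ℝ] (Fin (rank K) → ℝ))‖

variable (K) in
lemma cB_nonneg : 0 ≤ cB K := norm_nonneg _

lemma abs_ycoord_sub_le (hμ : 0 < μ) (hu : ∀ w, μ ≤ normAtPlace w u)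
    (hu' : ∀ w, μ ≤ normAtPlace w u') (i : Fin (rank K)) :
    |ycoord K u i - ycoord K u' i| ≤ cB K * (4 * (‖u - u'‖ / μ)) := by
  have h1 : ycoord K u i - ycoord K u' i =
      ((logBasis K).equivFunL : logSpace K →L[ℝ] (Fin (rank K) → ℝ)) (logMap u - logMap u') i := by
    unfold ycoord
    simp [Basis.equivFunL, map_sub]
  rw [h1]
  have h2 := norm_le_pi_norm
    (((logBasis K).equivFunL : logSpace K →L[ℝ] (Fin (rank K) → ℝ)) (logMap u - logMap u')) i
  rw [Real.norm_eq_abs] at h2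
  have h3 := ContinuousLinearMap.le_opNorm
    ((logBasis K).equivFunL : logSpace K →L[ℝ] (Fin (rank K) → ℝ)) (logMap u - logMap u')
  calc _ ≤ ‖((logBasis K).equivFunL : logSpace K →L[ℝ] (Fin (rank K) → ℝ))
        (logMap u - logMap u')‖ := h2
    _ ≤ cB K * ‖logMap u - logMap u'‖ := h3
    _ ≤ cB K * (4 * (‖u - u'‖ / μ)) :=
        mul_le_mul_of_nonneg_left (norm_logMap_sub_le hμ hu hu') (cB_nonneg K)

lemma abs_Phi_sub_le (hμ : 0 < μ) (hu : ∀ w, μ ≤ normAtPlace w u)
    (hu' : ∀ w, μ ≤ normAtPlace w u') :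
    |Phi K u - Phi K u'| ≤ (rank K : ℝ) * (cB K * (4 * (‖u - u'‖ / μ))) := by
  unfold Phi
  calc |∏ i, tent (ycoord K u i) - ∏ i, tent (ycoord K u' i)|
      ≤ ∑ i, |ycoord K u i - ycoord K u' i| := abs_prod_tent_sub_le _ _
    _ ≤ ∑ _i : Fin (rank K), cB K * (4 * (‖u - u'‖ / μ)) :=
        Finset.sum_le_sum fun i _ => abs_ycoord_sub_le hμ hu hu' i
    _ = (rank K : ℝ) * (cB K * (4 * (‖u - u'‖ / μ))) := by
        rw [Finset.sum_const, Finset.card_univ, Fintype.card_fin, nsmul_eq_mul]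

end Box

/-- `|a^(-s) - b^(-s)| ≤ s |log a - log b| max (a^(-s)) (b^(-s))`. -/
lemma abs_rpow_neg_sub_le {a b s T : ℝ} (ha : 0 < a) (hb : 0 < b) (hs : 0 ≤ s)
    (hTa : a ^ (-s) ≤ T) (hTb : b ^ (-s) ≤ T) :
    |a ^ (-s) - b ^ (-s)| ≤ s * |Real.log a - Real.log b| * T := by
  have key : ∀ {a b : ℝ}, 0 < a → 0 < b → a ^ (-s) ≤ T → Real.log a ≤ Real.log b →
      |a ^ (-s) - b ^ (-s)| ≤ s * |Real.log a - Real.log b| * T := by
    intro a b ha hb hTa hab
    have e1 : a ^ (-s) = Real.exp (-(s * Real.log a)) := by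
      rw [Real.rpow_def_of_pos ha]; congr 1; ring
    have e2 : b ^ (-s) = Real.exp (-(s * Real.log b)) := by
      rw [Real.rpow_def_of_pos hb]; congr 1; ring
    have ht : 0 ≤ s * (Real.log b - Real.log a) := mul_nonneg hs (sub_nonneg.mpr hab)
    have e3 : b ^ (-s) = a ^ (-s) * Real.exp (-(s * (Real.log b - Real.log a))) := by
      rw [e1, e2, ← Real.exp_add]; congr 1; ring
    have h1 : 1 - s * (Real.log b - Real.log a) ≤ Real.exp (-(s * (Real.log b - Real.log a))) := by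
      have := Real.add_one_le_exp (-(s * (Real.log b - Real.log a)))
      linarith
    have h2 : Real.exp (-(s * (Real.log b - Real.log a))) ≤ 1 :=
      Real.exp_le_one_iff.mpr (by linarith)
    have hapos : 0 ≤ a ^ (-s) := Real.rpow_nonneg ha.le _
    have h3 : 0 ≤ a ^ (-s) - b ^ (-s) := by
      rw [e3]
      nlinarith
    rw [abs_of_nonneg h3, abs_sub_comm, abs_of_nonneg (sub_nonneg.mpr hab)]
    have h4 : a ^ (-s) - b ^ (-s) ≤ a ^ (-s) * (s * (Real.log b - Real.log a)) := by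
      rw [e3]
      nlinarith
    calc a ^ (-s) - b ^ (-s) ≤ a ^ (-s) * (s * (Real.log b - Real.log a)) := h4
      _ ≤ T * (s * (Real.log b - Real.log a)) := mul_le_mul_of_nonneg_right hTa ht
      _ = s * (Real.log b - Real.log a) * T := by ring
  rcases le_total (Real.log a) (Real.log b) with hab | hab
  · exact key ha hb hTa hab
  · rw [abs_sub_comm (a ^ (-s)), abs_sub_comm (Real.log a)]
    exact key hb ha hTb hab

/-- The basic estimate for `Fs` in a box. -/
theorem abs_Fs_sub_le_of_box {μ s T : ℝ} {u u' : mixedSpace K} (hμ : 0 < μ) (hs : 0 ≤ s)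
    (hu : ∀ w, μ ≤ normAtPlace w u) (hu' : ∀ w, μ ≤ normAtPlace w u')
    (hT : (mixedEmbedding.norm u) ^ (-s) ≤ T) (hT' : (mixedEmbedding.norm u') ^ (-s) ≤ T) :
    |Fs K s u - Fs K s u'| ≤
      ((rank K : ℝ) * cB K * 4 + s * (finrank ℚ K : ℝ)) * (‖u - u'‖ / μ) * T := by
  have hN : 0 < mixedEmbedding.norm u :=
    lt_of_le_of_ne (mixedEmbedding.norm_nonneg u) (Ne.symm (norm_ne_zero_of_box hμ hu))
  have hN' : 0 < mixedEmbedding.norm u' :=
    lt_of_le_of_ne (mixedEmbedding.norm_nonneg u') (Ne.symm (norm_ne_zero_of_box hμ hu'))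
  have hT0 : 0 ≤ T := (Real.rpow_nonneg hN.le _).trans hT
  have hδ : 0 ≤ ‖u - u'‖ / μ := div_nonneg (norm_nonneg _) hμ.le
  have h1 := abs_Phi_sub_le hμ hu hu'
  have h2 := abs_rpow_neg_sub_le hN hN' hs hT hT'
  have h3 := abs_log_norm_sub_le hμ hu hu'
  unfold Fs
  have e : Phi K u * (mixedEmbedding.norm u) ^ (-s) - Phi K u' * (mixedEmbedding.norm u') ^ (-s) =
      (Phi K u - Phi K u') * (mixedEmbedding.norm u) ^ (-s) +
      Phi K u' * ((mixedEmbedding.norm u) ^ (-s) - (mixedEmbedding.norm u') ^ (-s)) := by ring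
  rw [e]
  calc |(Phi K u - Phi K u') * (mixedEmbedding.norm u) ^ (-s) +
        Phi K u' * ((mixedEmbedding.norm u) ^ (-s) - (mixedEmbedding.norm u') ^ (-s))|
      ≤ |(Phi K u - Phi K u') * (mixedEmbedding.norm u) ^ (-s)| +
        |Phi K u' * ((mixedEmbedding.norm u) ^ (-s) - (mixedEmbedding.norm u') ^ (-s))| :=
        abs_add_le _ _
    _ = |Phi K u - Phi K u'| * (mixedEmbedding.norm u) ^ (-s) +
        Phi K u' * |(mixedEmbedding.norm u) ^ (-s) - (mixedEmbedding.norm u') ^ (-s)| := by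
        rw [abs_mul, abs_mul, abs_of_nonneg (Real.rpow_nonneg hN.le _),
          abs_of_nonneg (Phi_nonneg K u')]
    _ ≤ ((rank K : ℝ) * (cB K * (4 * (‖u - u'‖ / μ)))) * T +
        1 * (s * ((finrank ℚ K : ℝ) * (‖u - u'‖ / μ)) * T) := by
        refine add_le_add (mul_le_mul h1 hT (Real.rpow_nonneg hN.le _) ?_)
          (mul_le_mul (Phi_le_one K u') ?_ (abs_nonneg _) zero_le_one)
        · exact mul_nonneg (Nat.cast_nonneg _)
            (mul_nonneg (cB_nonneg K) (mul_nonneg (by norm_num) hδ))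
        · exact h2.trans (mul_le_mul_of_nonneg_right (mul_le_mul_of_nonneg_left h3 hs) hT0)
    _ = ((rank K : ℝ) * cB K * 4 + s * (finrank ℚ K : ℝ)) * (‖u - u'‖ / μ) * T := by ring

/-! ### The shift bound -/

lemma pow_le_norm_of_box {μ : ℝ} {u : mixedSpace K} (hμ : 0 ≤ μ)
    (hu : ∀ w, μ ≤ normAtPlace w u) : μ ^ (finrank ℚ K) ≤ mixedEmbedding.norm u := by
  rw [mixedEmbedding.norm_apply, ← sum_mult_eq, ← Finset.prod_pow_eq_pow_sum]
  exact Finset.prod_le_prod (fun w _ => pow_nonneg hμ _)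
    (fun w _ => pow_le_pow_left₀ hμ (hu w) _)

variable (K) in
/-- The comparability constant `exp (2 R2) ≥ 1`. -/
noncomputable def kap : ℝ := Real.exp (2 * R2 K)

variable (K) in
lemma one_le_kap : 1 ≤ kap K :=
  Real.one_le_exp (mul_nonneg (by norm_num) (R2_nonneg K))

variable (K) in
/-- The constant of the shift bound. -/
noncomputable def shiftConst (D : ℝ) : ℝ :=
  max ((1 + (2 * kap K * D + 1) + D) ^ (finrank ℚ K + 1))
    (((rank K : ℝ) * cB K * 4 + 2 * (finrank ℚ K : ℝ)) * D * (6 * kap K) ^ (finrank ℚ K + 1))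

lemma one_le_shiftConst {D : ℝ} (hD : 0 ≤ D) : 1 ≤ shiftConst K D := by
  have hk := one_le_kap K
  have h1 : (1 : ℝ) ≤ 1 + (2 * kap K * D + 1) + D := by
    have : 0 ≤ 2 * kap K * D := mul_nonneg (by linarith) hD
    linarith
  exact (one_le_pow₀ h1).trans (le_max_left _ _)

lemma shift_aux {D s : ℝ} (hD : 0 ≤ D) (hs1 : 1 ≤ s) (hs2 : s ≤ 2) {z z' : mixedSpace K}
    (hz : 1 ≤ mixedEmbedding.norm z) (hz' : 1 ≤ mixedEmbedding.norm z') (hΦ : Phi K z ≠ 0)
    (hzz : ‖z - z'‖ ≤ D) :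
    |Fs K s z - Fs K s z'| ≤ shiftConst K D / (1 + ‖z‖) ^ (finrank ℚ K + 1) ∧
    |Fs K s z - Fs K s z'| ≤ shiftConst K D / (1 + ‖z'‖) ^ (finrank ℚ K + 1) := by
  have hk := one_le_kap K
  have hs0 : 0 ≤ s := by linarith
  have hz0 : mixedEmbedding.norm z ≠ 0 := by linarith
  have hnz' : ‖z'‖ ≤ ‖z‖ + D := by
    have := norm_sub_norm_le z' z
    rw [norm_sub_rev] at this
    linarith
  have hF1 : |Fs K s z - Fs K s z'| ≤ 1 := by
    have a1 := Fs_nonneg K s z
    have a2 := Fs_nonneg K s z'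
    have a3 := Fs_le_one K hs0 hz
    have a4 := Fs_le_one K hs0 hz'
    rw [abs_le]
    constructor <;> linarith
  set d := finrank ℚ K with hd
  by_cases hcase : ‖z‖ < 2 * kap K * D + 1
  · -- small norm: trivial bound
    have hC1 : (1 + (2 * kap K * D + 1) + D) ^ (d + 1) ≤ shiftConst K D := le_max_left _ _
    have hb1 : 1 + ‖z‖ ≤ 1 + (2 * kap K * D + 1) + D := by linarith
    have hb2 : 1 + ‖z'‖ ≤ 1 + (2 * kap K * D + 1) + D := by linarith
    have hp1 : (0 : ℝ) < 1 + ‖z‖ := by positivity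
    have hp2 : (0 : ℝ) < 1 + ‖z'‖ := by positivity
    constructor
    · rw [le_div_iff₀ (pow_pos hp1 _)]
      calc |Fs K s z - Fs K s z'| * (1 + ‖z‖) ^ (d + 1) ≤ 1 * (1 + ‖z‖) ^ (d + 1) :=
            mul_le_mul_of_nonneg_right hF1 (pow_pos hp1 _).le
        _ = (1 + ‖z‖) ^ (d + 1) := one_mul _
        _ ≤ (1 + (2 * kap K * D + 1) + D) ^ (d + 1) := pow_le_pow_left₀ hp1.le hb1 _
        _ ≤ shiftConst K D := hC1
    · rw [le_div_iff₀ (pow_pos hp2 _)]
      calc |Fs K s z - Fs K s z'| * (1 + ‖z'‖) ^ (d + 1) ≤ 1 * (1 + ‖z'‖) ^ (d + 1) :=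
            mul_le_mul_of_nonneg_right hF1 (pow_pos hp2 _).le
        _ = (1 + ‖z'‖) ^ (d + 1) := one_mul _
        _ ≤ (1 + (2 * kap K * D + 1) + D) ^ (d + 1) := pow_le_pow_left₀ hp2.le hb2 _
        _ ≤ shiftConst K D := hC1
  · -- large norm: box estimate
    have hcase' : 2 * kap K * D + 1 ≤ ‖z‖ := not_lt.mp hcase
    have hkpos : 0 < kap K := by linarith
    set μ := ‖z‖ / (2 * kap K) with hμdef
    have h2k : 0 < 2 * kap K := by linarith
    have hzeq : ‖z‖ = 2 * kap K * μ := by rw [hμdef]; field_simp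
    have hμD : D + 1 / (2 * kap K) ≤ μ := by
      rw [hμdef, le_div_iff₀ h2k]
      have : (D + 1 / (2 * kap K)) * (2 * kap K) = 2 * kap K * D + 1 := by field_simp
      rw [this]
      exact hcase'
    have hinv : 0 < 1 / (2 * kap K) := by positivity
    have hμpos : 0 < μ := by linarith
    have hDμ : D ≤ μ := by linarith
    have h1μ : 1 ≤ 2 * kap K * μ := by
      have : (1 : ℝ) = 2 * kap K * (1 / (2 * kap K)) := by field_simp
      rw [this]
      exact mul_le_mul_of_nonneg_left (by linarith) h2k.le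
    -- both points are in the box
    have hu : ∀ w, μ ≤ normAtPlace w z := by
      intro w
      have h1 := norm_le_exp_mul_normAtPlace hΦ hz0 w
      change ‖z‖ ≤ kap K * normAtPlace w z at h1
      rw [hzeq] at h1
      have h2 : 2 * μ ≤ normAtPlace w z := by
        have : kap K * (2 * μ) ≤ kap K * normAtPlace w z := by linarith
        exact le_of_mul_le_mul_left this hkpos
      linarith
    have hu2 : ∀ w, 2 * μ ≤ normAtPlace w z := by
      intro w
      have h1 := norm_le_exp_mul_normAtPlace hΦ hz0 w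
      change ‖z‖ ≤ kap K * normAtPlace w z at h1
      rw [hzeq] at h1
      have : kap K * (2 * μ) ≤ kap K * normAtPlace w z := by linarith
      exact le_of_mul_le_mul_left this hkpos
    have hu' : ∀ w, μ ≤ normAtPlace w z' := by
      intro w
      have h1 := (abs_le.mp (abs_normAtPlace_sub_le w z z')).2
      have h2 := hu2 w
      linarith
    -- the bound `T`
    have hT : ∀ u : mixedSpace K, 1 ≤ mixedEmbedding.norm u → (∀ w, μ ≤ normAtPlace w u) →
        (mixedEmbedding.norm u) ^ (-s) ≤ (μ ^ d)⁻¹ := by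
      intro u hu1 hub
      have hpow := pow_le_norm_of_box hμpos.le hub
      have hNpos : 0 < mixedEmbedding.norm u := by linarith
      calc (mixedEmbedding.norm u) ^ (-s) ≤ (mixedEmbedding.norm u) ^ (-1 : ℝ) :=
            Real.rpow_le_rpow_of_exponent_le hu1 (by linarith)
        _ = (mixedEmbedding.norm u)⁻¹ := Real.rpow_neg_one _
        _ ≤ (μ ^ d)⁻¹ := inv_anti₀ (pow_pos hμpos _) hpow
    have hbox := abs_Fs_sub_le_of_box hμpos hs0 hu hu' (hT z hz hu) (hT z' hz' hu')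
    set A := (rank K : ℝ) * cB K * 4 + 2 * (finrank ℚ K : ℝ) with hA
    have hA0 : 0 ≤ (rank K : ℝ) * cB K * 4 :=
      mul_nonneg (mul_nonneg (Nat.cast_nonneg _) (cB_nonneg K)) (by norm_num)
    have hAs : (rank K : ℝ) * cB K * 4 + s * (finrank ℚ K : ℝ) ≤ A := by
      rw [hA]
      have : s * (finrank ℚ K : ℝ) ≤ 2 * (finrank ℚ K : ℝ) :=
        mul_le_mul_of_nonneg_right hs2 (Nat.cast_nonneg _)
      linarith
    have hAnn : 0 ≤ A := by
      rw [hA]
      have : (0 : ℝ) ≤ 2 * (finrank ℚ K : ℝ) := mul_nonneg (by norm_num) (Nat.cast_nonneg _)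
      linarith
    have hmain : |Fs K s z - Fs K s z'| ≤ A * D / μ ^ (d + 1) := by
      have hδ : ‖z - z'‖ / μ ≤ D / μ := div_le_div_of_nonneg_right hzz hμpos.le
      have hδ0 : 0 ≤ ‖z - z'‖ / μ := div_nonneg (norm_nonneg _) hμpos.le
      have hTpos : 0 ≤ (μ ^ d)⁻¹ := inv_nonneg.mpr (pow_pos hμpos _).le
      calc |Fs K s z - Fs K s z'|
          ≤ ((rank K : ℝ) * cB K * 4 + s * (finrank ℚ K : ℝ)) * (‖z - z'‖ / μ) * (μ ^ d)⁻¹ := hbox
        _ ≤ A * (D / μ) * (μ ^ d)⁻¹ := by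
            refine mul_le_mul_of_nonneg_right ?_ hTpos
            exact mul_le_mul hAs hδ hδ0 hAnn
        _ = A * D / μ ^ (d + 1) := by
            rw [pow_succ]; field_simp
    have hC2 : A * D * (6 * kap K) ^ (d + 1) ≤ shiftConst K D := le_max_right _ _
    have hb1 : 1 + ‖z‖ ≤ 6 * kap K * μ := by
      rw [hzeq]
      have : 0 ≤ kap K * μ := mul_nonneg hkpos.le hμpos.le
      nlinarith
    have hb2 : 1 + ‖z'‖ ≤ 6 * kap K * μ := by
      have h1 : 1 + ‖z'‖ ≤ 1 + ‖z‖ + D := by linarith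
      rw [hzeq] at h1
      have h2 : μ ≤ kap K * μ := le_mul_of_one_le_left hμpos.le hk
      have : 0 ≤ kap K * μ := mul_nonneg hkpos.le hμpos.le
      nlinarith
    have hfin : ∀ t : ℝ, 0 < t → t ≤ 6 * kap K * μ →
        A * D / μ ^ (d + 1) ≤ shiftConst K D / t ^ (d + 1) := by
      intro t ht htb
      rw [div_le_div_iff₀ (pow_pos hμpos _) (pow_pos ht _)]
      have h1 : t ^ (d + 1) ≤ (6 * kap K * μ) ^ (d + 1) := pow_le_pow_left₀ ht.le htb _
      calc A * D * t ^ (d + 1) ≤ A * D * (6 * kap K * μ) ^ (d + 1) :=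
            mul_le_mul_of_nonneg_left h1 (mul_nonneg hAnn hD)
        _ = A * D * (6 * kap K) ^ (d + 1) * μ ^ (d + 1) := by rw [mul_pow]; ring
        _ ≤ shiftConst K D * μ ^ (d + 1) :=
            mul_le_mul_of_nonneg_right hC2 (pow_pos hμpos _).le
    exact ⟨hmain.trans (hfin _ (by positivity) hb1), hmain.trans (hfin _ (by positivity) hb2)⟩

/-- **Shift bound** for `Fs`, uniform in `s ∈ [1, 2]`, at points which are zero or of norm
`≥ 1`. -/
theorem Fs_shift_bound {D s : ℝ} (hD : 0 ≤ D) (hs1 : 1 ≤ s) (hs2 : s ≤ 2) {x y : mixedSpace K}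
    (hx : x = 0 ∨ 1 ≤ mixedEmbedding.norm x) (hy : y = 0 ∨ 1 ≤ mixedEmbedding.norm y)
    (hxy : ‖x - y‖ ≤ D) :
    |Fs K s x - Fs K s y| ≤ shiftConst K D / (1 + ‖y‖) ^ (finrank ℚ K + 1) := by
  have hs0 : 0 ≤ s := by linarith
  have hsne : s ≠ 0 := by linarith
  have hC := one_le_shiftConst (K := K) hD
  have hk := one_le_kap K
  have hp : (0 : ℝ) < 1 + ‖y‖ := by positivity
  have hC1 : (1 + (2 * kap K * D + 1) + D) ^ (finrank ℚ K + 1) ≤ shiftConst K D := le_max_left _ _
  -- the trivial bound when `‖y‖ ≤ D`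
  have htriv : ‖y‖ ≤ D → |Fs K s x - Fs K s y| ≤ 1 →
      |Fs K s x - Fs K s y| ≤ shiftConst K D / (1 + ‖y‖) ^ (finrank ℚ K + 1) := by
    intro hyD h1
    rw [le_div_iff₀ (pow_pos hp _)]
    have hb : 1 + ‖y‖ ≤ 1 + (2 * kap K * D + 1) + D := by
      have : 0 ≤ 2 * kap K * D := mul_nonneg (by linarith) hD
      linarith
    calc |Fs K s x - Fs K s y| * (1 + ‖y‖) ^ (finrank ℚ K + 1)
        ≤ 1 * (1 + ‖y‖) ^ (finrank ℚ K + 1) := mul_le_mul_of_nonneg_right h1 (pow_pos hp _).le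
      _ = (1 + ‖y‖) ^ (finrank ℚ K + 1) := one_mul _
      _ ≤ (1 + (2 * kap K * D + 1) + D) ^ (finrank ℚ K + 1) := pow_le_pow_left₀ hp.le hb _
      _ ≤ shiftConst K D := hC1
  rcases hx with rfl | hx
  · rcases hy with rfl | hy
    · rw [sub_self, abs_zero]
      exact div_nonneg (by linarith) (pow_pos hp _).le
    · have hyD : ‖y‖ ≤ D := by simpa using hxy
      refine htriv hyD ?_
      rw [Fs_zero K hsne, zero_sub, abs_neg, abs_of_nonneg (Fs_nonneg K s y)]
      exact Fs_le_one K hs0 hy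
  · rcases hy with rfl | hy
    · rw [Fs_zero K hsne, sub_zero, abs_of_nonneg (Fs_nonneg K s x), norm_zero, add_zero, one_pow,
        div_one]
      exact (Fs_le_one K hs0 hx).trans hC
    · by_cases hΦx : Phi K x = 0
      · by_cases hΦy : Phi K y = 0
        · have e1 : Fs K s x = 0 := by unfold Fs; rw [hΦx, zero_mul]
          have e2 : Fs K s y = 0 := by unfold Fs; rw [hΦy, zero_mul]
          rw [e1, e2, sub_self, abs_zero]
          exact div_nonneg (by linarith) (pow_pos hp _).le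
        · have hyx : ‖y - x‖ ≤ D := by rwa [norm_sub_rev]
          have := (shift_aux hD hs1 hs2 hy hx hΦy hyx).1
          rwa [abs_sub_comm] at this
      · exact (shift_aux hD hs1 hs2 hx hy hΦx hxy).2

end Fermat.Agent.S14.A3S
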