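import Mathlib
import Fermat.Agent.S14.A3S.Phi

set_option autoImplicit false

/-!
# Slice A3 (partition-of-unity design): unfolding

For an integral ideal `J` in the class `C⁻¹`, the ideals `I` of the class `C` correspond to the
unit orbits of the nonzero `a ∈ J` (`(a) = J * I`); weighting by the cutoff `Phi` (whose orbit
sums are the number `w` of roots of unity) turns a sum over the ideals of the class `C` into a
sum over the nonzero elements of `J`.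
-/

open NumberField NumberField.mixedEmbedding NumberField.InfinitePlace NumberField.Units
  NumberField.Units.dirichletUnitTheorem Module

open scoped NumberField nonZeroDivisors ENNReal

namespace Fermat.Agent.S14.A3S

variable {K : Type*} [Field K] [NumberField K]

lemma mixedEmbedding_norm_ne_zero {a : 𝓞 K} (ha : a ≠ 0) :
    mixedEmbedding.norm (mixedEmbedding K (a : K)) ≠ 0 := by
  rw [mixedEmbedding.norm_eq_norm]
  have h1 : (a : K) ≠ 0 := by exact_mod_cast ha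
  have h2 : Algebra.norm ℚ (a : K) ≠ 0 := Algebra.norm_ne_zero_iff.mpr h1
  exact_mod_cast abs_ne_zero.mpr h2

/-- The generators of a nonzero principal ideal form a torsor under the units. -/
noncomputable def unitsEquivGen {I : Ideal (𝓞 K)} {a₀ : 𝓞 K} (ha₀ : a₀ ≠ 0)
    (hI : Ideal.span {a₀} = I) : (𝓞 K)ˣ ≃ {a : 𝓞 K // Ideal.span {a} = I} :=
  Equiv.ofBijective
    (fun u => ⟨(u : 𝓞 K) * a₀, by
      rw [← hI, Ideal.span_singleton_eq_span_singleton]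
      exact ⟨u⁻¹, by rw [mul_comm, ← mul_assoc]; simp⟩⟩)
    ⟨fun u v h => by
      have h' : (u : 𝓞 K) * a₀ = (v : 𝓞 K) * a₀ := congrArg Subtype.val h
      exact Units.ext (mul_right_cancel₀ ha₀ h'),
    fun ⟨a, ha⟩ => by
      rw [← hI, Ideal.span_singleton_eq_span_singleton] at ha
      obtain ⟨u, hu⟩ := ha.symm
      exact ⟨u, Subtype.ext (by simpa [mul_comm] using hu)⟩⟩

omit [NumberField K] in
lemma unitsEquivGen_apply {I : Ideal (𝓞 K)} {a₀ : 𝓞 K} (ha₀ : a₀ ≠ 0)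
    (hI : Ideal.span {a₀} = I) (u : (𝓞 K)ˣ) :
    ((unitsEquivGen ha₀ hI u : {a : 𝓞 K // Ideal.span {a} = I}) : 𝓞 K) = (u : 𝓞 K) * a₀ := rfl

/-- The sum of `Phi` over the generators of a nonzero principal ideal. -/
lemma tsum_Phi_generators {I : Ideal (𝓞 K)} (hI0 : I ≠ ⊥) (hI : I.IsPrincipal) :
    ∑' a : {a : 𝓞 K // Ideal.span {a} = I},
      ENNReal.ofReal (Phi K (mixedEmbedding K ((a : 𝓞 K) : K))) = torsionOrder K := by
  obtain ⟨a₀, ha₀⟩ := hI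
  have ha₀' : Ideal.span {a₀} = I := ha₀.symm
  have hne : a₀ ≠ 0 := by
    rintro rfl
    apply hI0
    rw [← ha₀']
    simp
  rw [← (unitsEquivGen hne ha₀').tsum_eq, ← tsum_Phi_unit_smul K (mixedEmbedding_norm_ne_zero hne)]
  refine tsum_congr fun u => ?_
  rw [unitsEquivGen_apply, unitSMul_smul]
  congr 2
  push_cast
  rw [map_mul]

variable (K) in
/-- The sigma-type of pairs (ideal `I` of class `C`, generator of `J * I`). -/
abbrev GenSigma (J : (Ideal (𝓞 K))⁰) (C : ClassGroup (𝓞 K)) : Type _ :=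
  Σ I : {I : (Ideal (𝓞 K))⁰ // ClassGroup.mk0 I = C},
    {a : 𝓞 K // Ideal.span {a} = (J : Ideal (𝓞 K)) * ((I : (Ideal (𝓞 K))⁰) : Ideal (𝓞 K))}

/-- The nonzero elements of `J` are the generators of the ideals `J * I`, `I` in the class
`[J]⁻¹`. -/
noncomputable def genSigmaEquiv (J : (Ideal (𝓞 K))⁰) {C : ClassGroup (𝓞 K)}
    (hJ : ClassGroup.mk0 J = C⁻¹) :
    GenSigma K J C ≃ {a : 𝓞 K // a ∈ (J : Ideal (𝓞 K)) ∧ a ≠ 0} :=
  Equiv.ofBijective
    (fun x => ⟨(x.2 : 𝓞 K), by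
      have h := x.2.2
      have hJ0 : (J : Ideal (𝓞 K)) ≠ ⊥ := mem_nonZeroDivisors_iff_ne_zero.mp J.2
      have hI0 : ((x.1 : (Ideal (𝓞 K))⁰) : Ideal (𝓞 K)) ≠ ⊥ :=
        mem_nonZeroDivisors_iff_ne_zero.mp x.1.1.2
      constructor
      · rw [← Ideal.dvd_span_singleton, h]
        exact Dvd.intro _ rfl
      · intro h0
        rw [h0, Ideal.span_singleton_eq_bot.mpr rfl] at h
        exact mul_ne_zero hJ0 hI0 h.symm⟩)
    ⟨by
      rintro ⟨⟨I, hIC⟩, a, ha⟩ ⟨⟨I', hIC'⟩, a', ha'⟩ h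
      have haa : a = a' := by
        have := congrArg Subtype.val h
        exact this
      subst haa
      have hJ0 : (J : Ideal (𝓞 K)) ≠ ⊥ := mem_nonZeroDivisors_iff_ne_zero.mp J.2
      have hII : (I : Ideal (𝓞 K)) = (I' : Ideal (𝓞 K)) :=
        mul_left_cancel₀ hJ0 (ha.symm.trans ha')
      have hII' : I = I' := Subtype.ext hII
      subst hII'
      rfl,
    by
      rintro ⟨a, haJ, ha0⟩
      obtain ⟨I, hI⟩ := Ideal.dvd_span_singleton.mpr haJ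
      have hI0 : I ≠ ⊥ := by
        rintro rfl
        rw [Ideal.mul_bot, Ideal.span_singleton_eq_bot] at hI
        exact ha0 hI
      have hImem : I ∈ (Ideal (𝓞 K))⁰ := mem_nonZeroDivisors_iff_ne_zero.mpr hI0
      have hspan : Ideal.span {a} ∈ (Ideal (𝓞 K))⁰ :=
        mem_nonZeroDivisors_iff_ne_zero.mpr (fun h0 => ha0 (Ideal.span_singleton_eq_bot.mp h0))
      have hcl : ClassGroup.mk0 ⟨I, hImem⟩ = C := by
        have h1 : ClassGroup.mk0 (⟨Ideal.span {a}, hspan⟩ : (Ideal (𝓞 K))⁰) = 1 :=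
          (ClassGroup.mk0_eq_one_iff hspan).mpr ⟨a, rfl⟩
        have h2 : (⟨Ideal.span {a}, hspan⟩ : (Ideal (𝓞 K))⁰) = J * ⟨I, hImem⟩ :=
          Subtype.ext hI
        rw [h2, map_mul, hJ] at h1
        exact (inv_mul_eq_one.mp h1).symm
      exact ⟨⟨⟨⟨I, hImem⟩, hcl⟩, ⟨a, hI⟩⟩, rfl⟩⟩

lemma genSigmaEquiv_apply (J : (Ideal (𝓞 K))⁰) {C : ClassGroup (𝓞 K)}
    (hJ : ClassGroup.mk0 J = C⁻¹) (x : GenSigma K J C) :
    ((genSigmaEquiv J hJ x : {a : 𝓞 K // a ∈ (J : Ideal (𝓞 K)) ∧ a ≠ 0}) : 𝓞 K) = (x.2 : 𝓞 K) :=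
  rfl

/-- **Unfolding.**  A sum over the nonzero elements of `J`, weighted by `Phi`, of a function of
the norm, is `w` times the corresponding sum over the ideals of the class `[J]⁻¹`. -/
theorem tsum_unfold (J : (Ideal (𝓞 K))⁰) {C : ClassGroup (𝓞 K)}
    (hJ : ClassGroup.mk0 J = C⁻¹) (f : ℕ → ℝ≥0∞) :
    ∑' a : {a : 𝓞 K // a ∈ (J : Ideal (𝓞 K)) ∧ a ≠ 0},
        ENNReal.ofReal (Phi K (mixedEmbedding K ((a : 𝓞 K) : K))) *
          f (Ideal.absNorm (Ideal.span {(a : 𝓞 K)})) =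
      torsionOrder K * ∑' I : {I : (Ideal (𝓞 K))⁰ // ClassGroup.mk0 I = C},
        f (Ideal.absNorm (J : Ideal (𝓞 K)) *
          Ideal.absNorm ((I : (Ideal (𝓞 K))⁰) : Ideal (𝓞 K))) := by
  rw [← (genSigmaEquiv J hJ).tsum_eq, ENNReal.tsum_sigma', ← ENNReal.tsum_mul_left]
  refine tsum_congr fun I => ?_
  have hJ0 : (J : Ideal (𝓞 K)) ≠ ⊥ := mem_nonZeroDivisors_iff_ne_zero.mp J.2
  have hI0 : ((I : (Ideal (𝓞 K))⁰) : Ideal (𝓞 K)) ≠ ⊥ :=
    mem_nonZeroDivisors_iff_ne_zero.mp I.1.2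
  have hprin : ((J : Ideal (𝓞 K)) * ((I : (Ideal (𝓞 K))⁰) : Ideal (𝓞 K))).IsPrincipal := by
    have hmem : (J : Ideal (𝓞 K)) * ((I : (Ideal (𝓞 K))⁰) : Ideal (𝓞 K)) ∈ (Ideal (𝓞 K))⁰ :=
      mem_nonZeroDivisors_iff_ne_zero.mpr (mul_ne_zero hJ0 hI0)
    rw [← ClassGroup.mk0_eq_one_iff hmem]
    have : (⟨(J : Ideal (𝓞 K)) * ((I : (Ideal (𝓞 K))⁰) : Ideal (𝓞 K)), hmem⟩ :
        (Ideal (𝓞 K))⁰) = J * (I : (Ideal (𝓞 K))⁰) := Subtype.ext rfl
    rw [this, map_mul, hJ, I.2, inv_mul_cancel]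
  have hterm : ∀ a : {a : 𝓞 K // Ideal.span {a} =
      (J : Ideal (𝓞 K)) * ((I : (Ideal (𝓞 K))⁰) : Ideal (𝓞 K))},
      ENNReal.ofReal (Phi K (mixedEmbedding K
          (((genSigmaEquiv J hJ ⟨I, a⟩ : {a : 𝓞 K // a ∈ (J : Ideal (𝓞 K)) ∧ a ≠ 0}) : 𝓞 K) : K))) *
        f (Ideal.absNorm (Ideal.span
          {((genSigmaEquiv J hJ ⟨I, a⟩ : {a : 𝓞 K // a ∈ (J : Ideal (𝓞 K)) ∧ a ≠ 0}) : 𝓞 K)})) =
      ENNReal.ofReal (Phi K (mixedEmbedding K ((a : 𝓞 K) : K))) *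
        f (Ideal.absNorm (J : Ideal (𝓞 K)) *
          Ideal.absNorm ((I : (Ideal (𝓞 K))⁰) : Ideal (𝓞 K))) := by
    intro a
    rw [genSigmaEquiv_apply, a.2, map_mul]
  rw [tsum_congr hterm, ENNReal.tsum_mul_right, tsum_Phi_generators (mul_ne_zero hJ0 hI0) hprin]

end Fermat.Agent.S14.A3S
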